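import Fermat.Agent.S55.G.Rec.Spec2

/-!
# S55 / layer G / block REC, leaf L6 (helper374): `LocalRootSpec`

In `ℚ̄_q`: if `‖a - 1‖ < 1` and `q ∤ n` then `a` has a unique `n`-th root `b` with `‖b - 1‖ < 1`;
by uniqueness `b` is fixed by every automorphism fixing `a`.

* `norm_algEquiv` : `ℚ_q`-automorphisms of `ℚ̄_q` are isometries.
* `norm_natCast_eq_one` : `‖(n : ℚ̄_q)‖ = 1` for `q ∤ n`.
* `eq_one_of_pow_eq_one_of_norm_sub_one_lt` : an `n`-th root of unity close to `1` is `1`.
* `exists_root_near_one`, `root_near_one_unique`.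
* `localRoot : LocalRootSpec`.
-/

set_option autoImplicit false

namespace Fermat.Agent.S55.G.Rec.H374

open Polynomial

variable (q : ℕ) [Fact q.Prime]

local notation "Gq" => (PadicAlgCl q ≃ₐ[ℚ_[q]] PadicAlgCl q)

/-- `ℚ_q`-automorphisms of `ℚ̄_q` are isometries. -/
theorem norm_algEquiv (τ : Gq) (x : PadicAlgCl q) : ‖τ x‖ = ‖x‖ :=
  (spectralNorm_eq_of_equiv τ x).symm

/-- `‖n‖ = 1` in `ℚ̄_q` for `q ∤ n`. -/
theorem norm_natCast_eq_one {n : ℕ} (hn : ¬ q ∣ n) : ‖(n : PadicAlgCl q)‖ = 1 := by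
  have h1 : (n : PadicAlgCl q) = algebraMap ℚ_[q] (PadicAlgCl q) (n : ℚ_[q]) :=
    (map_natCast _ n).symm
  have h2 : ‖algebraMap ℚ_[q] (PadicAlgCl q) (n : ℚ_[q])‖ = ‖(n : ℚ_[q])‖ :=
    PadicAlgCl.norm_extends q (n : ℚ_[q])
  rw [h1, h2, Padic.norm_natCast_eq_one_iff]
  exact (Nat.Prime.coprime_iff_not_dvd (Fact.out : q.Prime)).mpr hn

variable {q}

/-- Ultrametric inequality in `ℚ̄_q`. -/
theorem norm_add_le_max' (x y : PadicAlgCl q) : ‖x + y‖ ≤ max ‖x‖ ‖y‖ :=
  PadicAlgCl.isNonarchimedean q x y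

theorem norm_sub_le_max' (x y : PadicAlgCl q) : ‖x - y‖ ≤ max ‖x‖ ‖y‖ := by
  have := norm_add_le_max' x (-y)
  rwa [norm_neg, ← sub_eq_add_neg] at this

/-- An element close to `1` has norm `1`. -/
theorem norm_eq_one_of_norm_sub_one_lt {x : PadicAlgCl q} (hx : ‖x - 1‖ < 1) : ‖x‖ = 1 := by
  apply le_antisymm
  · have := norm_add_le_max' (x - 1) 1
    rw [sub_add_cancel, norm_one] at this
    exact this.trans (max_le hx.le le_rfl)
  · by_contra h
    rw [not_le] at h
    have := norm_sub_le_max' x (x - 1)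
    rw [sub_sub_cancel, norm_one] at this
    exact absurd this (not_le.mpr (max_lt h hx))

theorem norm_pow_sub_one_lt {x : PadicAlgCl q} (hx : ‖x - 1‖ < 1) (i : ℕ) : ‖x ^ i - 1‖ < 1 := by
  induction i with
  | zero => simp
  | succ i ih =>
    have h1 : x ^ (i + 1) - 1 = x ^ i * (x - 1) + (x ^ i - 1) := by ring
    rw [h1]
    refine (norm_add_le_max' _ _).trans_lt (max_lt ?_ ih)
    rw [norm_mul, norm_pow, norm_eq_one_of_norm_sub_one_lt hx, one_pow, one_mul]
    exact hx

theorem norm_sum_lt_one {ι : Type*} (s : Finset ι) (f : ι → PadicAlgCl q)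
    (hf : ∀ i ∈ s, ‖f i‖ < 1) : ‖∑ i ∈ s, f i‖ < 1 := by
  classical
  induction s using Finset.induction_on with
  | empty => simp
  | insert a s ha ih =>
    rw [Finset.sum_insert ha]
    refine (norm_add_le_max' _ _).trans_lt (max_lt (hf a (Finset.mem_insert_self a s)) ?_)
    exact ih fun i hi => hf i (Finset.mem_insert_of_mem hi)

/-- An `n`-th root of unity (`q ∤ n`) close to `1` is `1`. -/
theorem eq_one_of_pow_eq_one_of_norm_sub_one_lt {n : ℕ} (hn : ¬ q ∣ n) {ζ : PadicAlgCl q}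
    (hζ : ζ ^ n = 1) (h1 : ‖ζ - 1‖ < 1) : ζ = 1 := by
  have hgeom : (ζ - 1) * ∑ i ∈ Finset.range n, ζ ^ i = 0 := by
    rw [mul_geom_sum, hζ, sub_self]
  have hsum : ∑ i ∈ Finset.range n, ζ ^ i ≠ 0 := by
    intro h0
    have h2 : ∑ i ∈ Finset.range n, (ζ ^ i - 1) = - (n : PadicAlgCl q) := by
      rw [Finset.sum_sub_distrib, h0]
      simp
    have h3 : ‖∑ i ∈ Finset.range n, (ζ ^ i - 1)‖ < 1 :=
      norm_sum_lt_one _ _ fun i _ => norm_pow_sub_one_lt h1 i
    rw [h2, norm_neg, norm_natCast_eq_one q hn] at h3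
    exact lt_irrefl _ h3
  rcases mul_eq_zero.mp hgeom with h | h
  · exact sub_eq_zero.mp h
  · exact absurd h hsum

/-- Uniqueness of the `n`-th root close to `1`. -/
theorem root_near_one_unique {n : ℕ} (hn : ¬ q ∣ n) {b b' : PadicAlgCl q}
    (hb : ‖b - 1‖ < 1) (hb' : ‖b' - 1‖ < 1) (h : b ^ n = b' ^ n) : b = b' := by
  have hb1 : ‖b‖ = 1 := norm_eq_one_of_norm_sub_one_lt hb
  have hb0 : b ≠ 0 := by
    intro h0
    rw [h0, norm_zero] at hb1
    exact zero_ne_one hb1
  have hζ : (b' / b) ^ n = 1 := by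
    rw [div_pow, ← h, div_self (pow_ne_zero n hb0)]
  have hclose : ‖b' / b - 1‖ < 1 := by
    have : b' / b - 1 = (b' - b) / b := by field_simp
    rw [this, norm_div, hb1, div_one]
    have h2 : b' - b = (b' - 1) - (b - 1) := by ring
    rw [h2]
    exact (norm_sub_le_max' _ _).trans_lt (max_lt hb' hb)
  have := eq_one_of_pow_eq_one_of_norm_sub_one_lt hn hζ hclose
  rw [div_eq_one_iff_eq hb0] at this
  exact this.symm

/-- Existence of an `n`-th root close to `1`. -/
theorem exists_root_near_one {n : ℕ} (hn0 : n ≠ 0) {a : PadicAlgCl q} (ha : ‖a - 1‖ < 1) :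
    ∃ b : PadicAlgCl q, b ^ n = a ∧ ‖b - 1‖ < 1 := by
  classical
  set P : (PadicAlgCl q)[X] := X ^ n - C a with hP
  have hmonic : P.Monic := monic_X_pow_sub_C a hn0
  have hsplit : P.Splits := IsAlgClosed.splits P
  have heval : P.eval 1 = (P.roots.map (fun b => 1 - b)).prod :=
    hsplit.eval_eq_prod_roots_of_monic hmonic 1
  have heval1 : P.eval 1 = 1 - a := by simp [hP]
  by_contra hcon
  have hroot : ∀ b ∈ P.roots, 1 ≤ ‖1 - b‖ := by
    intro b hb
    have hb' : b ^ n = a := by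
      have := (mem_roots hmonic.ne_zero).mp hb
      simpa [hP, sub_eq_zero] using this
    by_contra hlt
    rw [not_le] at hlt
    exact hcon ⟨b, hb', by rwa [← norm_neg, neg_sub]⟩
  have hprod : ∀ s : Multiset (PadicAlgCl q), (∀ b ∈ s, 1 ≤ ‖1 - b‖) →
      1 ≤ ‖(s.map (fun b => 1 - b)).prod‖ := by
    intro s
    induction s using Multiset.induction_on with
    | empty => intro _; simp
    | cons x s ih =>
      intro h
      rw [Multiset.map_cons, Multiset.prod_cons, norm_mul]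
      exact one_le_mul_of_one_le_of_one_le (h x (Multiset.mem_cons_self x s))
        (ih fun b hb => h b (Multiset.mem_cons_of_mem hb))
  have h1 := hprod P.roots hroot
  rw [← heval, heval1, ← norm_neg, neg_sub] at h1
  exact absurd ha (not_lt.mpr h1)

variable (q) in
/-- **(L6)** roots of elements close to `1`. -/
theorem localRoot : LocalRootSpec := by
  intro q _ V n hn a haV ha
  have hn0 : n ≠ 0 := by
    rintro rfl
    exact hn (dvd_zero q)
  obtain ⟨b, hb, hb1⟩ := exists_root_near_one hn0 ha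
  have hb0 : b ≠ 0 := by
    intro h0
    rw [h0, zero_pow hn0] at hb
    exact a.ne_zero hb.symm
  refine ⟨Units.mk0 b hb0, ?_, ?_⟩
  · intro τ hτ
    apply Units.ext
    have hτa : τ (a : PadicAlgCl q) = a := by
      have := congrArg (fun u : (PadicAlgCl q)ˣ => (u : PadicAlgCl q)) (haV τ hτ)
      simpa using this
    have h1 : ‖τ b - 1‖ < 1 := by
      have : τ b - 1 = τ (b - 1) := by rw [map_sub, map_one]
      rw [this, norm_algEquiv]
      exact hb1
    have h2 : (τ b) ^ n = b ^ n := by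
      rw [← map_pow, hb, hτa]
    have := root_near_one_unique hn h1 hb1 h2
    simpa using this
  · apply Units.ext
    simpa using hb

end Fermat.Agent.S55.G.Rec.H374
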